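import Fermat.Agent.Banaszczyk.Transference

/-!
# The covering radius

If every point of `x + ℤ ^ m` and every nonzero vector of the inverse form is long, the translate
carries too little mass for its Poisson series.
-/

set_option autoImplicit false

noncomputable section

open Matrix FA.Perfect FA.Reduction
open scoped Real

namespace FA.Banaszczyk

variable {n : ℕ} {P : Matrix (Fin (n + 1)) (Fin (n + 1)) ℝ}

/-- **No translate avoids the ball when the inverse form is large.** -/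
theorem false_of_far (hP : P.PosDef) (hn : 1 ≤ n) {x : Fin (n + 1) → ℝ}
    (h1 : ∀ v, 25 / 64 * ((n : ℝ) + 1) ≤ quad P (x + castVec v))
    (h2 : ∀ w, w ≠ 0 → 16 / 25 * ((n : ℝ) + 1) ≤ ival P⁻¹ w) : False := by
  obtain ⟨A, hA⟩ : ∃ A : ℝ, A = Real.exp (-π * (1 - 2 / 5) * (25 / 64)) * (√(2 / 5))⁻¹ := ⟨_, rfl⟩
  obtain ⟨B, hB⟩ : ∃ B : ℝ, B = Real.exp (-π * (1 - 1 / 4) * (16 / 25)) * (√(1 / 4))⁻¹ := ⟨_, rfl⟩
  have hpow : ∀ (r R : ℝ), Real.exp (r * (R * ((n : ℝ) + 1))) = Real.exp (r * R) ^ (n + 1) :=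
    fun r R => by
      rw [← Real.exp_nat_mul]
      push_cast
      congr 1
      ring
  have hfar : gsum P x ≤ A ^ (n + 1) * gsum P 0 := by
    refine le_of_eq_of_le ?_ ((tail_le hP x (25 / 64 * ((n : ℝ) + 1)) (s := 2 / 5) (by norm_num)
      (by norm_num)).trans_eq ?_)
    · exact tsum_congr fun v => (if_pos (h1 v)).symm
    · rw [hA, mul_pow, hpow]
  obtain ⟨S, hS⟩ : ∃ S, S = ∑' w : Fin (n + 1) → ℤ,
      if 16 / 25 * ((n : ℝ) + 1) ≤ quad P⁻¹ (0 + castVec w) then
        Real.exp (-π * quad P⁻¹ (0 + castVec w)) else 0 := ⟨_, rfl⟩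
  have hS' : S ≤ B ^ (n + 1) * gsum P⁻¹ 0 := by
    refine hS ▸ (tail_le hP.inv 0 _ (s := 1 / 4) (by norm_num) (by norm_num)).trans_eq ?_
    rw [hB, mul_pow, hpow]
  have hnear : gsum P 0 * (1 - 2 * B ^ (n + 1)) ≤ gsum P x := by
    rw [gsum_dual hP, gsum_poisson hP x, mul_assoc]
    refine mul_le_mul_of_nonneg_left ?_ (inv_nonneg.2 (Real.sqrt_nonneg _))
    have hs := summable_gauss_ival hP.inv
    have hst := (summable_tail hP.inv 0 (16 / 25 * ((n : ℝ) + 1))).mul_left 2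
    refine le_trans ?_ ((hs.sub hst).tsum_le_tsum (fun w => ?_)
      (Summable.of_norm_bounded hs fun w => ?_))
    · rw [hs.tsum_sub hst, tsum_mul_left, ← hS, ← gsum_zero_eq]
      linarith
    · simp only [zero_add]
      change Real.exp (-π * ival P⁻¹ w) -
        2 * (if _ ≤ ival P⁻¹ w then Real.exp (-π * ival P⁻¹ w) else 0) ≤ _
      split_ifs with h
      · nlinarith [Real.neg_one_le_cos (2 * π * (castVec w ⬝ᵥ x)),
          Real.exp_pos (-π * ival P⁻¹ w)]
      · obtain rfl : w = 0 := by_contra fun hw => h (h2 w hw)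
        simp [castVec, dotProduct]
    · rw [norm_mul, Real.norm_of_nonneg (Real.exp_pos _).le]
      exact mul_le_of_le_one_right (Real.exp_pos _).le (Real.abs_cos_le_one _)
  have h : 1 - 2 * B ^ (n + 1) ≤ A ^ (n + 1) := le_of_mul_le_mul_left
    ((hnear.trans hfar).trans_eq (mul_comm _ _)) (gsum_pos hP 0)
  have hπ := Real.pi_gt_d2
  have he := Real.exp_one_gt_d9
  have hA2 : A ^ 2 ≤ 0.59 := by
    rw [hA, mul_pow, inv_pow, Real.sq_sqrt (by norm_num), ← Real.exp_nat_mul]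
    have h3 : 4.3 ≤ Real.exp (π * (15 / 32)) := by
      refine le_trans ?_ (Real.exp_le_exp.2 (show 1 + 0.471 ≤ π * (15 / 32) by linarith))
      rw [Real.exp_add]
      refine le_trans ?_ (mul_le_mul he.le (Real.quadratic_le_exp_of_nonneg (by norm_num))
        (by norm_num) (Real.exp_pos 1).le)
      norm_num
    rw [show ((2 : ℕ) : ℝ) * (-π * (1 - 2 / 5) * (25 / 64)) = -(π * (15 / 32)) by push_cast; ring,
      Real.exp_neg, ← mul_inv, inv_le_iff_one_le_mul₀ (by positivity)]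
    linarith
  have hB2 : B ^ 2 ≤ 0.2 := by
    rw [hB, mul_pow, inv_pow, Real.sq_sqrt (by norm_num), ← Real.exp_nat_mul]
    have h3 : 20 ≤ Real.exp (π * (24 / 25)) := by
      refine le_trans ?_ (Real.exp_le_exp.2 (show 3 + 0.014 ≤ π * (24 / 25) by linarith))
      rw [Real.exp_add, show (3 : ℝ) = ((3 : ℕ) : ℝ) * 1 by norm_num, Real.exp_nat_mul]
      refine le_trans ?_ (mul_le_mul (pow_le_pow_left₀ (by norm_num) he.le 3)
        (Real.add_one_le_exp _) (by norm_num) (pow_nonneg (Real.exp_pos 1).le 3))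
      norm_num
    rw [show ((2 : ℕ) : ℝ) * (-π * (1 - 1 / 4) * (16 / 25)) = -(π * (24 / 25)) by push_cast; ring,
      Real.exp_neg, ← mul_inv, inv_le_iff_one_le_mul₀ (by positivity)]
    linarith
  have hA0 : 0 ≤ A := by rw [hA]; positivity
  have hB0 : 0 ≤ B := by rw [hB]; positivity
  have hA' := pow_le_pow_of_le_one hA0 (by nlinarith) (show 2 ≤ n + 1 by omega)
  have hB' := pow_le_pow_of_le_one hB0 (by nlinarith) (show 2 ≤ n + 1 by omega)
  linarith

/-- **The covering radius** is at most half the dimension over the least value of the inverse. -/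
theorem exists_near (hP : P.PosDef) (x : Fin (n + 1) → ℝ) :
    ∃ v, quad P (x - castVec v) * minVal P⁻¹ ≤ ((n : ℝ) + 1) ^ 2 / 4 := by
  rcases Nat.eq_zero_or_pos n with rfl | hn
  · have hle : minVal P * minVal P⁻¹ ≤ 1 := minVal_mul_le_one hP
    refine ⟨fun i => round (x i), ?_⟩
    have h0 : quad P (x - castVec fun i => round (x i)) = P 0 0 * (x 0 - round (x 0)) ^ 2 := by
      simp [quad, mulVec, dotProduct, castVec]
      ring
    have hr : (x 0 - round (x 0)) ^ 2 ≤ 1 / 4 := by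
      have := pow_le_pow_left₀ (abs_nonneg _) (abs_sub_round (x 0)) 2
      rw [sq_abs] at this
      linarith
    have hmin : P 0 0 ≤ minVal P := le_minVal fun w hw => by
      have h1 : (1 : ℝ) ≤ (w 0 : ℝ) ^ 2 := by
        have : w 0 ≠ 0 := fun h => hw (funext fun i => (Fin.eq_zero i).symm ▸ h)
        exact_mod_cast (one_le_sq_iff_one_le_abs _).2 (Int.one_le_abs this)
      have hp : 0 < P 0 0 := hP.diag_pos
      have e : ival P w = P 0 0 * (w 0 : ℝ) ^ 2 := by
        simp [ival, quad, mulVec, dotProduct]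
        ring
      rw [e]
      exact le_mul_of_one_le_right hp.le h1
    have hpos := minVal_pos hP.inv
    rw [h0]
    calc P 0 0 * (x 0 - round (x 0)) ^ 2 * minVal P⁻¹
        ≤ minVal P * (1 / 4) * minVal P⁻¹ := by
          gcongr
          exact (minVal_pos hP).le
      _ ≤ ((0 : ℕ) + 1 : ℝ) ^ 2 / 4 := by norm_num; linarith
  by_contra! h
  have hμ := minVal_pos hP.inv
  obtain ⟨c, hc⟩ : ∃ c : ℝ, c = 25 * minVal P⁻¹ / (16 * ((n : ℝ) + 1)) := ⟨_, rfl⟩
  have hc0 : 0 < c := by rw [hc]; positivity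
  refine false_of_far (posDef_smul hP hc0) hn (x := x) (fun v => ?_) fun w hw => ?_
  · have h3 : castVec (-v) = -castVec v := funext fun i => by simp [castVec]
    have h1 := (h (-v)).le
    rw [h3, sub_neg_eq_add, div_le_iff₀ (by norm_num : (0 : ℝ) < 4)] at h1
    rw [quad_smul_form, hc, div_mul_eq_mul_div (25 * minVal P⁻¹),
      le_div_iff₀ (by positivity : (0 : ℝ) < 16 * ((n : ℝ) + 1))]
    linarith
  · rw [inv_smul_form hP hc0.ne', ival_smul, le_inv_mul_iff₀ hc0, hc]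
    refine le_of_eq_of_le ?_ (minVal_le hP.inv hw)
    field_simp

/-- **The converse**: some point is at distance at least half the inverse of the least value. -/
theorem exists_far (hP : P.PosDef) :
    ∃ x, ∀ v, 1 / 4 ≤ quad P (x - castVec v) * minVal P⁻¹ := by
  obtain ⟨w, hw⟩ := minVecs_nonempty hP.inv
  obtain ⟨i, hi⟩ := Function.ne_iff.1 hw.1
  have hi' : (w i : ℝ) ≠ 0 := Int.cast_ne_zero.2 hi
  refine ⟨Pi.single i (2 * (w i : ℝ))⁻¹, fun v => ?_⟩
  rw [minVal_eq hw]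
  refine le_trans ?_ (sq_dotProduct_le hP _ _)
  have e : (Pi.single i (2 * (w i : ℝ))⁻¹ - castVec v) ⬝ᵥ (fun j => (w j : ℝ)) =
      1 / 2 - ((v ⬝ᵥ w : ℤ) : ℝ) := by
    rw [sub_dotProduct, single_dotProduct]
    congr 1
    · field_simp
    · simp [castVec, dotProduct]
  rw [e]
  rcases le_or_gt (v ⬝ᵥ w) 0 with hk | hk
  · have : ((v ⬝ᵥ w : ℤ) : ℝ) ≤ 0 := Int.cast_nonpos.2 hk
    nlinarith
  · have : (1 : ℝ) ≤ ((v ⬝ᵥ w : ℤ) : ℝ) := Int.cast_one_le_of_pos hk
    nlinarith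

/-- **Flatness**: an ellipsoid without integral points inside is thin in some integral direction. -/
theorem exists_flat (hP : P.PosDef) {a : Fin (n + 1) → ℝ}
    (ha : ∀ v, 1 ≤ quad P (castVec v - a)) :
    ∃ w : Fin (n + 1) → ℤ, w ≠ 0 ∧ ∀ x y, quad P (x - a) ≤ 1 → quad P (y - a) ≤ 1 →
      |castVec w ⬝ᵥ x - castVec w ⬝ᵥ y| ≤ (n : ℝ) + 1 := by
  obtain ⟨w, hw⟩ := minVecs_nonempty hP.inv
  obtain ⟨v, hv⟩ := exists_near hP a
  have hμ : minVal P⁻¹ ≤ (((n : ℝ) + 1) / 2) ^ 2 := by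
    have h1 := mul_le_mul_of_nonneg_right (ha v) (minVal_pos hP.inv).le
    rw [← quad_neg P (castVec v - a), neg_sub, one_mul] at h1
    exact (h1.trans hv).trans_eq (by ring)
  refine ⟨w, hw.1, fun x y hx hy => ?_⟩
  have key : ∀ z, quad P (z - a) ≤ 1 → |castVec w ⬝ᵥ (z - a)| ≤ ((n : ℝ) + 1) / 2 := fun z hz => by
    refine abs_le_of_sq_le_sq ?_ (by positivity)
    rw [dotProduct_comm]
    refine (sq_dotProduct_le hP _ _).trans ((mul_le_of_le_one_left ?_ hz).trans ?_)
    · exact quad_nonneg hP.inv _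
    · exact (minVal_eq hw).symm.trans_le hμ
  have e : castVec w ⬝ᵥ x - castVec w ⬝ᵥ y = castVec w ⬝ᵥ (x - a) - castVec w ⬝ᵥ (y - a) := by
    rw [dotProduct_sub, dotProduct_sub]
    ring
  rw [e]
  exact (abs_sub _ _).trans (by linarith [key x hx, key y hy])

end FA.Banaszczyk

end
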