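import Fermat.Agent.PackingLP.Gaussian
import Fermat.Agent.Perfect.Transference
import Fermat.Agent.Perfect.Packing

/-!
# The Gaussian mass of a translate of `ℤ ^ m` under a positive form

Poisson summation turns the mass of a translate into a cosine series for the inverse form, so the
lattice itself carries the most mass, and scaling the form by `t ≤ 1` gains at most `t ^ (-m / 2)`.
-/

set_option autoImplicit false

noncomputable section

open Matrix MeasureTheory FA.Perfect FA.Reduction FA.OrthogonalUnits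
open scoped Real

namespace FA.Banaszczyk

variable {n : ℕ}

/-- A positive form is the squared length after a linear change of variables. -/
theorem exists_gram {P : Matrix (Fin (n + 1)) (Fin (n + 1)) ℝ} (hP : P.PosDef) :
    ∃ B : Matrix (Fin (n + 1)) (Fin (n + 1)) ℝ, B.det ≠ 0 ∧ P = Bᵀ * B := by
  obtain ⟨d, T, hd, -, hT, rfl⟩ := exists_upper hP
  refine ⟨diagonal (fun i => √(d i)) * T, ?_, ?_⟩
  · rw [det_mul, det_diagonal]
    exact mul_ne_zero (Finset.prod_ne_zero_iff.2 fun i _ => (Real.sqrt_pos.2 (hd i)).ne') hT.ne_zero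
  · rw [transpose_mul, diagonal_transpose]
    simp only [Matrix.mul_assoc]
    rw [← Matrix.mul_assoc (diagonal fun i => √(d i)) (diagonal fun i => √(d i)) T,
      diagonal_mul_diagonal]
    simp only [Real.mul_self_sqrt (hd _).le]

/-- `∑ exp (-π P (u + v))` over the integral vectors `v`. -/
def gsum (P : Matrix (Fin (n + 1)) (Fin (n + 1)) ℝ) (u : Fin (n + 1) → ℝ) : ℝ :=
  ∑' v : Fin (n + 1) → ℤ, Real.exp (-π * quad P (u + castVec v))

variable {P : Matrix (Fin (n + 1)) (Fin (n + 1)) ℝ}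

theorem summable_gsum (hP : P.PosDef) (u : Fin (n + 1) → ℝ) :
    Summable fun v : Fin (n + 1) → ℤ => Real.exp (-π * quad P (u + castVec v)) := by
  obtain ⟨B, hB, rfl⟩ := exists_gram hP
  refine (HeckeFE.summable_gauss_shift (L := B) (N := (B⁻¹)ᵀ) ?_ u).congr fun v => ?_
  · rw [transpose_transpose, nonsing_inv_mul _ (isUnit_iff_ne_zero.2 hB)]
  · rw [quad_transpose_mul_self]
    rfl

theorem summable_gauss_ival (hP : P.PosDef) :
    Summable fun v : Fin (n + 1) → ℤ => Real.exp (-π * ival P v) := by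
  have h := summable_gsum hP 0
  simp only [zero_add] at h
  exact h

theorem gsum_pos (hP : P.PosDef) (u : Fin (n + 1) → ℝ) : 0 < gsum P u :=
  (summable_gsum hP u).tsum_pos (fun _ => (Real.exp_pos _).le) 0 (Real.exp_pos _)

theorem gsum_zero_eq (P : Matrix (Fin (n + 1)) (Fin (n + 1)) ℝ) :
    gsum P 0 = ∑' v : Fin (n + 1) → ℤ, Real.exp (-π * ival P v) := by
  simp only [gsum, zero_add]
  rfl

theorem quad_neg (P : Matrix (Fin (n + 1)) (Fin (n + 1)) ℝ) (x : Fin (n + 1) → ℝ) :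
    quad P (-x) = quad P x := by
  simp [quad, mulVec_neg]

theorem gsum_neg (P : Matrix (Fin (n + 1)) (Fin (n + 1)) ℝ) (u : Fin (n + 1) → ℝ) :
    gsum P (-u) = gsum P u := by
  rw [gsum, gsum, ← (Equiv.neg (Fin (n + 1) → ℤ)).tsum_eq]
  refine tsum_congr fun v => ?_
  rw [← quad_neg P (u + castVec v)]
  congr 3
  funext i
  simp [castVec]
  ring

/-- **Poisson summation.** -/
theorem gsum_poisson (hP : P.PosDef) (u : Fin (n + 1) → ℝ) :
    gsum P u = (√P.det)⁻¹ * ∑' w : Fin (n + 1) → ℤ,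
      Real.exp (-π * ival P⁻¹ w) * Real.cos (2 * π * (castVec w ⬝ᵥ u)) := by
  obtain ⟨B, hB, rfl⟩ := exists_gram hP
  have hinv : (Bᵀ * B)⁻¹ = ((B⁻¹)ᵀ)ᵀ * (B⁻¹)ᵀ := by
    rw [transpose_transpose, Matrix.mul_inv_rev, transpose_nonsing_inv]
  have hdet : √(Bᵀ * B).det = |B.det| := by
    rw [det_mul, det_transpose, Real.sqrt_mul_self_eq_abs]
  have hval : ∀ w, Real.exp (-π * ival (Bᵀ * B)⁻¹ w) =
      PackingLP.gaussFun 1 ((B⁻¹)ᵀ *ᵥ HeckeFE.ofInt w) := fun w => by
    rw [ival, hinv, quad_transpose_mul_self, PackingLP.gaussFun, mul_one, neg_mul]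
    rfl
  obtain ⟨C, hC⟩ := PackingLP.exists_comp_bound hB
    (PackingLP.hasDecay_gaussFun (n := n + 1) one_pos)
  have hsum : Summable fun m : Fin (n + 1) → ℤ =>
      ((|B.det|⁻¹ * Real.exp (-π * ival (Bᵀ * B)⁻¹ m) : ℝ) : ℂ) :=
    Complex.summable_ofReal.2 ((summable_gauss_ival hP.inv).mul_left _)
  have h := PackingLP.poisson_decay (H := fun x => (PackingLP.gaussFun 1 (B *ᵥ x) : ℂ))
    (Complex.continuous_ofReal.comp ((PackingLP.continuous_gaussFun 1).comp
      (continuous_const.matrix_mulVec continuous_id)))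
    ⟨C, fun x => by simpa using hC x⟩
    (c := fun m => ((|B.det|⁻¹ * Real.exp (-π * ival (Bᵀ * B)⁻¹ m) : ℝ) : ℂ))
    (fun m => by
      rw [PackingLP.coeff_comp hB (PackingLP.continuous_gaussFun 1) m,
        PackingLP.fourierT_gaussFun one_pos, ← Complex.ofReal_mul, hval]
      simp)
    hsum u
  rw [← Complex.ofReal_tsum] at h
  have hre := congrArg Complex.re h
  rw [Complex.ofReal_re] at hre
  have hterm : ∀ m : Fin (n + 1) → ℤ,
      ‖UnitAddTorus.mFourier m (HeckeFE.toTorus u)‖ ≤ 1 := fun m =>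
    le_of_eq (by rw [HeckeFE.mFourier_toTorus, Complex.norm_exp]; simp)
  rw [Complex.re_tsum (Summable.of_norm_bounded hsum.norm fun m => by
    rw [norm_mul]; exact mul_le_of_le_one_right (norm_nonneg _) (hterm m))] at hre
  rw [hdet, ← tsum_mul_left]
  refine Eq.trans ?_ (hre.trans (tsum_congr fun m => ?_))
  · refine tsum_congr fun v => ?_
    rw [quad_transpose_mul_self, PackingLP.gaussFun, mul_one, neg_mul]
    rfl
  · rw [Complex.re_ofReal_mul, HeckeFE.mFourier_toTorus, mul_assoc]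
    congr 2
    rw [show 2 * (π : ℂ) * Complex.I * ∑ i, (m i : ℂ) * (u i : ℂ) =
        ((2 * π * (castVec m ⬝ᵥ u) : ℝ) : ℂ) * Complex.I by
      simp [castVec, dotProduct]; ring, Complex.exp_ofReal_mul_I_re]

theorem gsum_dual (hP : P.PosDef) : gsum P 0 = (√P.det)⁻¹ * gsum P⁻¹ 0 := by
  rw [gsum_poisson hP, gsum_zero_eq P⁻¹]
  simp

/-- No translate carries more than the lattice. -/
theorem gsum_le_zero (hP : P.PosDef) (u : Fin (n + 1) → ℝ) : gsum P u ≤ gsum P 0 := by
  rw [gsum_poisson hP, gsum_dual hP, gsum_zero_eq]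
  refine mul_le_mul_of_nonneg_left ?_ (inv_nonneg.2 (Real.sqrt_nonneg _))
  have hle : ∀ w : Fin (n + 1) → ℤ, Real.exp (-π * ival P⁻¹ w) *
      Real.cos (2 * π * (castVec w ⬝ᵥ u)) ≤ Real.exp (-π * ival P⁻¹ w) := fun w =>
    mul_le_of_le_one_right (Real.exp_pos _).le (Real.cos_le_one _)
  refine Summable.tsum_le_tsum hle ?_ (summable_gauss_ival hP.inv)
  refine Summable.of_norm_bounded (summable_gauss_ival hP.inv) fun w => ?_
  rw [norm_mul, Real.norm_of_nonneg (Real.exp_pos _).le]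
  exact mul_le_of_le_one_right (Real.exp_pos _).le (Real.abs_cos_le_one _)

theorem inv_smul_form (hP : P.PosDef) {t : ℝ} (ht : t ≠ 0) : (t • P)⁻¹ = t⁻¹ • P⁻¹ :=
  inv_eq_right_inv (by
    rw [Matrix.smul_mul, Matrix.mul_smul, smul_smul, mul_inv_cancel₀ ht, one_smul,
      mul_nonsing_inv _ (isUnit_iff_ne_zero.2 hP.det_pos.ne')])

/-- Scaling the form by `t ≤ 1`. -/
theorem gsum_smul_le (hP : P.PosDef) {t : ℝ} (ht : 0 < t) (ht1 : t ≤ 1) :
    gsum (t • P) 0 ≤ (√t)⁻¹ ^ (n + 1) * gsum P 0 := by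
  have hdet : √(t • P).det = √t ^ (n + 1) * √P.det := by
    rw [det_smul, Fintype.card_fin, Real.sqrt_mul (pow_nonneg ht.le _)]
    congr 1
    rw [Real.sqrt_eq_iff_mul_self_eq (pow_nonneg ht.le _) (by positivity), ← mul_pow,
      Real.mul_self_sqrt ht.le]
  rw [gsum_dual (posDef_smul hP ht), gsum_dual hP, hdet, mul_inv, inv_pow, mul_assoc]
  refine mul_le_mul_of_nonneg_left (mul_le_mul_of_nonneg_left ?_
    (inv_nonneg.2 (Real.sqrt_nonneg _))) (inv_nonneg.2 (by positivity))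
  rw [inv_smul_form hP ht.ne', gsum_zero_eq, gsum_zero_eq]
  refine Summable.tsum_le_tsum (fun w => ?_)
    (summable_gauss_ival (posDef_smul hP.inv (inv_pos.2 ht))) (summable_gauss_ival hP.inv)
  rw [ival_smul]
  refine Real.exp_le_exp.2 (mul_le_mul_of_nonpos_left ?_ (neg_nonpos.2 Real.pi_pos.le))
  exact le_mul_of_one_le_left (quad_nonneg hP.inv _) ((one_le_inv₀ ht).2 ht1)

end FA.Banaszczyk

end
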