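import Fermat.Agent.Banaszczyk.Gaussian

/-!
# The tail of the Gaussian mass

Outside `quad P ≥ R` the mass of any translate, and its second moment on the lattice, are an
exponentially small part of the mass of the lattice.
-/

set_option autoImplicit false

noncomputable section

open Matrix FA.Perfect FA.Reduction
open scoped Real

namespace FA.Banaszczyk

variable {n : ℕ} {P : Matrix (Fin (n + 1)) (Fin (n + 1)) ℝ}

theorem quad_smul_form (c : ℝ) (P : Matrix (Fin (n + 1)) (Fin (n + 1)) ℝ)
    (x : Fin (n + 1) → ℝ) : quad (c • P) x = c * quad P x := by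
  simp [quad, smul_mulVec, dotProduct_smul]

theorem gauss_term_le {q R s : ℝ} (hs1 : s ≤ 1) (h : R ≤ q) :
    Real.exp (-π * q) ≤ Real.exp (-π * (1 - s) * R) * Real.exp (-π * (s * q)) := by
  rw [← Real.exp_add, Real.exp_le_exp]
  nlinarith [mul_nonneg (mul_nonneg Real.pi_pos.le (sub_nonneg.2 hs1)) (sub_nonneg.2 h)]

theorem summable_tail (hP : P.PosDef) (u : Fin (n + 1) → ℝ) (R : ℝ) :
    Summable fun v : Fin (n + 1) → ℤ =>
      if R ≤ quad P (u + castVec v) then Real.exp (-π * quad P (u + castVec v)) else 0 := by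
  refine Summable.of_nonneg_of_le (fun v => ?_) (fun v => ?_) (summable_gsum hP u)
  · split_ifs
    · exact (Real.exp_pos _).le
    · exact le_rfl
  · split_ifs
    · exact le_rfl
    · exact (Real.exp_pos _).le

/-- **The tail of a translate.** -/
theorem tail_le (hP : P.PosDef) (u : Fin (n + 1) → ℝ) (R : ℝ) {s : ℝ} (hs : 0 < s) (hs1 : s ≤ 1) :
    ∑' v : Fin (n + 1) → ℤ,
        (if R ≤ quad P (u + castVec v) then Real.exp (-π * quad P (u + castVec v)) else 0) ≤
      Real.exp (-π * (1 - s) * R) * (√s)⁻¹ ^ (n + 1) * gsum P 0 := by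
  have hsP := posDef_smul hP hs
  refine ((summable_tail hP u R).tsum_le_tsum (fun v => ?_)
    ((summable_gsum hsP u).mul_left (Real.exp (-π * (1 - s) * R)))).trans ?_
  · split_ifs with h
    · rw [quad_smul_form]
      exact gauss_term_le hs1 h
    · positivity
  · rw [tsum_mul_left]
    exact (mul_le_mul_of_nonneg_left ((gsum_le_zero hsP u).trans (gsum_smul_le hP hs hs1))
      (Real.exp_pos _).le).trans_eq (mul_assoc _ _ _).symm

/-- The weight `q exp (-π (1 - δ) q)` of the vectors of value at least `R`. -/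
def momentTerm (P : Matrix (Fin (n + 1)) (Fin (n + 1)) ℝ) (R δ : ℝ) (v : Fin (n + 1) → ℤ) : ℝ :=
  if R ≤ ival P v then ival P v * Real.exp (-π * (1 - δ) * ival P v) else 0

theorem momentTerm_nonneg (hP : P.PosDef) (R δ : ℝ) (v : Fin (n + 1) → ℤ) :
    0 ≤ momentTerm P R δ v := by
  unfold momentTerm
  split_ifs
  · exact mul_nonneg (quad_nonneg hP _) (Real.exp_pos _).le
  · exact le_rfl

/-- **The second moment of the tail.** -/
theorem moment_le (hP : P.PosDef) {R δ s : ℝ} (hR : 0 < R) (hs : 0 < s) (hs1 : s ≤ 1)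
    (ha : 1 ≤ π * (1 - δ - s) * R) :
    Summable (momentTerm P R δ) ∧ ∑' v, momentTerm P R δ v ≤
      R * Real.exp (-(π * (1 - δ - s)) * R) * (√s)⁻¹ ^ (n + 1) * gsum P 0 := by
  set a := π * (1 - δ - s) with ha_def
  have hsP := posDef_smul hP hs
  have hle : ∀ v, momentTerm P R δ v ≤
      R * Real.exp (-a * R) * Real.exp (-π * ival (s • P) v) := fun v => by
    unfold momentTerm
    split_ifs with h
    · rw [ival_smul, show -π * (1 - δ) * ival P v = -a * R + -(a * (ival P v - R)) +
          -π * (s * ival P v) by rw [ha_def]; ring, Real.exp_add, Real.exp_add, ← mul_assoc,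
        ← mul_assoc]
      refine mul_le_mul_of_nonneg_right ?_ (Real.exp_pos _).le
      rw [mul_comm (ival P v) (Real.exp _), mul_assoc, mul_comm R]
      refine mul_le_mul_of_nonneg_left ?_ (Real.exp_pos _).le
      rw [Real.exp_neg, ← div_eq_mul_inv, div_le_iff₀ (Real.exp_pos _)]
      have h1 := mul_le_mul_of_nonneg_left (Real.add_one_le_exp (a * (ival P v - R))) hR.le
      have h2 := mul_nonneg (sub_nonneg.2 ha) (sub_nonneg.2 h)
      linarith
    · positivity
  have hsum : Summable (momentTerm P R δ) :=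
    Summable.of_nonneg_of_le (momentTerm_nonneg hP R δ) hle ((summable_gauss_ival hsP).mul_left _)
  refine ⟨hsum, (hsum.tsum_le_tsum hle ((summable_gauss_ival hsP).mul_left _)).trans ?_⟩
  rw [tsum_mul_left, ← gsum_zero_eq, mul_assoc (R * _)]
  exact mul_le_mul_of_nonneg_left (gsum_smul_le hP hs hs1) (by positivity)

/-- In two or more variables the second moment beyond `n + 1` is at most `7 / 100` of the mass. -/
theorem moment_le_small (hP : P.PosDef) (hn : 1 ≤ n) {δ : ℝ} (hδ1 : δ ≤ 1 / 1000) :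
    Summable (momentTerm P ((n : ℝ) + 1) δ) ∧
      ∑' v, momentTerm P ((n : ℝ) + 1) δ v ≤ 7 / 100 * gsum P 0 := by
  set a := π * (1 - δ - 1 / 6) with ha_def
  have hn' : (1 : ℝ) ≤ n := Nat.one_le_cast.2 hn
  have hπ := Real.pi_gt_d2
  have ha : 2.6 ≤ a := by
    have := mul_le_mul hπ.le (show (0.832 : ℝ) ≤ 1 - δ - 1 / 6 by norm_num; linarith)
      (by norm_num) Real.pi_pos.le
    rw [ha_def]
    linarith
  obtain ⟨hsum, hb⟩ := moment_le hP (R := (n : ℝ) + 1) (δ := δ) (s := 1 / 6) (by positivity)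
    (by norm_num) (by norm_num) (by nlinarith)
  refine ⟨hsum, hb.trans (mul_le_mul_of_nonneg_right ?_ (gsum_pos hP 0).le)⟩
  set C := Real.exp (-a) * (√(1 / 6 : ℝ))⁻¹ with hC_def
  have hC0 : 0 ≤ C := by positivity
  have hC2 : C ^ 2 ≤ 7 / 200 := by
    have e : C ^ 2 = 6 / Real.exp (2 * a) := by
      rw [hC_def, mul_pow, inv_pow, Real.sq_sqrt (by norm_num), ← Real.exp_nat_mul,
        show ((2 : ℕ) : ℝ) * -a = -(2 * a) by push_cast; ring, Real.exp_neg]
      ring
    have h5 : 2.718 ^ 5 ≤ Real.exp 5 := by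
      rw [show (5 : ℝ) = ((5 : ℕ) : ℝ) * 1 by norm_num, Real.exp_nat_mul]
      exact pow_le_pow_left₀ (by norm_num) (by linarith [Real.exp_one_gt_d9]) _
    have h2a : 175 ≤ Real.exp (2 * a) := by
      refine le_trans ?_ (Real.exp_le_exp.2 (show 5 + 0.2 ≤ 2 * a by linarith))
      rw [Real.exp_add]
      exact le_trans (by norm_num) (mul_le_mul h5 (Real.add_one_le_exp 0.2) (by norm_num)
        (Real.exp_pos 5).le)
    rw [e, div_le_iff₀ (Real.exp_pos _)]
    linarith
  have hC : C ≤ 1 / 2 := by nlinarith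
  have hdec : ∀ k : ℕ, 2 ≤ k → (k : ℝ) * C ^ k ≤ 2 * C ^ 2 := by
    intro k hk
    induction k, hk using Nat.le_induction with
    | base => norm_num
    | succ k hk ih =>
      have hk' : (2 : ℝ) ≤ k := Nat.ofNat_le_cast.2 hk
      refine le_trans ?_ ih
      rw [pow_succ', ← mul_assoc]
      refine mul_le_mul_of_nonneg_right ?_ (pow_nonneg hC0 k)
      push_cast
      nlinarith
  have h := hdec (n + 1) (by omega)
  rw [hC_def, mul_pow, ← Real.exp_nat_mul] at h
  push_cast at h
  rw [mul_assoc, show -a * ((n : ℝ) + 1) = ((n : ℝ) + 1) * -a by ring]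
  linarith

end FA.Banaszczyk

end
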