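import Fermat.Agent.Banaszczyk.Tail
import Mathlib.Analysis.SpecialFunctions.Trigonometric.Series

/-!
# Banaszczyk's transference theorem

No direction can be orthogonal to all short vectors of a form and of its inverse: comparing the mass
of the translate by `x / 100` in the two Poisson series gives a contradiction.
-/

set_option autoImplicit false

noncomputable section

open Matrix FA.Perfect FA.Reduction
open scoped Real

namespace FA.Banaszczyk

variable {n : ℕ} {P : Matrix (Fin (n + 1)) (Fin (n + 1)) ℝ}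

theorem quad_add (hP : P.PosDef) (x y : Fin (n + 1) → ℝ) :
    quad P (x + y) = quad P x + 2 * (y ⬝ᵥ (P *ᵥ x)) + quad P y := by
  have hs : x ⬝ᵥ (P *ᵥ y) = y ⬝ᵥ (P *ᵥ x) := by
    rw [dotProduct_mulVec, ← mulVec_transpose, (posDef_iff_quad.1 hP).1.eq, dotProduct_comm]
  simp only [quad, mulVec_add, dotProduct_add, add_dotProduct, hs]
  ring

theorem sq_dotProduct_mulVec_le (hP : P.PosDef) {x : Fin (n + 1) → ℝ} (hx : quad P x = 1)
    (y : Fin (n + 1) → ℝ) : (y ⬝ᵥ (P *ᵥ x)) ^ 2 ≤ quad P y := by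
  refine (sq_dotProduct_le hP y (P *ᵥ x)).trans_eq ?_
  have e : quad P⁻¹ (P *ᵥ x) = 1 := by
    rw [quad, mulVec_mulVec, nonsing_inv_mul _ (isUnit_iff_ne_zero.2 hP.det_pos.ne'), one_mulVec,
      dotProduct_comm]
    exact hx
  rw [e, mul_one]

theorem exp_sub_one_le (b : ℝ) : Real.exp b - 1 ≤ b * Real.exp b := by
  have h : Real.exp b * Real.exp (-b) = 1 := by rw [← Real.exp_add, add_neg_cancel, Real.exp_zero]
  have := mul_le_mul_of_nonneg_left (Real.add_one_le_exp (-b)) (Real.exp_pos b).le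
  linarith

/-- **No direction is orthogonal to all short vectors of both forms.** -/
theorem false_of_perp (hP : P.PosDef) (hn : 1 ≤ n) {x : Fin (n + 1) → ℝ} (hx : quad P x = 1)
    (h1 : ∀ v, ival P v < (n : ℝ) + 1 → castVec v ⬝ᵥ (P *ᵥ x) = 0)
    (h2 : ∀ w, ival P⁻¹ w < (n : ℝ) + 1 → castVec w ⬝ᵥ x = 0) : False := by
  obtain ⟨t, ht⟩ : ∃ t : ℝ, t = 1 / 100 := ⟨_, rfl⟩
  obtain ⟨δ, hδ⟩ : ∃ δ : ℝ, δ = 2 * π * t ^ 2 := ⟨_, rfl⟩
  have hπ := Real.pi_gt_d2
  have hπ' := Real.pi_lt_d2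
  have hδ0 : 0 ≤ δ := by rw [hδ]; positivity
  have hδ1 : δ ≤ 1 / 1000 := by rw [hδ, ht]; linarith
  obtain ⟨hMs, hM⟩ := moment_le_small hP hn hδ1
  obtain ⟨hMs', hM'⟩ := moment_le_small hP.inv hn hδ1
  set c := 2 * π ^ 2 * t ^ 2 with hc
  have hc0 : 0 ≤ c := by positivity
  -- the dual series bounds the mass from below
  have hpt : ∀ w, Real.exp (-π * ival P⁻¹ w) - c * momentTerm P⁻¹ ((n : ℝ) + 1) δ w ≤
      Real.exp (-π * ival P⁻¹ w) * Real.cos (2 * π * (castVec w ⬝ᵥ (t • x))) := fun w => by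
    have hq := quad_nonneg hP.inv (castVec w)
    rw [dotProduct_smul, smul_eq_mul]
    unfold momentTerm
    split_ifs with h
    · have hl : (castVec w ⬝ᵥ x) ^ 2 ≤ ival P⁻¹ w := by
        rw [dotProduct_comm]
        exact (sq_dotProduct_le hP x _).trans_eq (by rw [hx, one_mul]; rfl)
      have hcos := mul_le_mul_of_nonneg_left
        (Real.one_sub_sq_div_two_le_cos (x := 2 * π * (t * (castVec w ⬝ᵥ x))))
        (Real.exp_pos (-π * ival P⁻¹ w)).le
      have he : Real.exp (-π * ival P⁻¹ w) ≤ Real.exp (-π * (1 - δ) * ival P⁻¹ w) := by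
        rw [Real.exp_le_exp]
        nlinarith [mul_nonneg (mul_nonneg Real.pi_pos.le hδ0) (show 0 ≤ ival P⁻¹ w from hq)]
      have h3 := mul_le_mul_of_nonneg_left (mul_le_mul hl he (Real.exp_pos _).le
        (show 0 ≤ ival P⁻¹ w from hq)) hc0
      rw [hc] at h3 ⊢
      linarith
    · rw [h2 w (not_le.1 h)]
      simp
  have hlow : gsum P 0 * (1 - 7 / 100 * c) ≤ gsum P (t • x) := by
    rw [gsum_dual hP, gsum_poisson hP (t • x), mul_assoc]
    refine mul_le_mul_of_nonneg_left ?_ (inv_nonneg.2 (Real.sqrt_nonneg _))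
    have hs := summable_gauss_ival hP.inv
    refine le_trans ?_ ((hs.sub (hMs'.mul_left c)).tsum_le_tsum hpt
      (Summable.of_norm_bounded hs fun w => ?_))
    · rw [hs.tsum_sub (hMs'.mul_left c), tsum_mul_left, ← gsum_zero_eq]
      nlinarith [mul_le_mul_of_nonneg_left hM' hc0]
    · rw [norm_mul, Real.norm_of_nonneg (Real.exp_pos _).le]
      exact mul_le_of_le_one_right (Real.exp_pos _).le (Real.abs_cos_le_one _)
  -- the series of the translates bounds it from above
  have hpair : ∀ v, Real.exp (-π * quad P (t • x + castVec v)) +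
      Real.exp (-π * quad P (-(t • x) + castVec v)) ≤
      2 * Real.exp (-π * t ^ 2) *
        (Real.exp (-π * ival P v) + c * momentTerm P ((n : ℝ) + 1) δ v) := fun v => by
    have hq : 0 ≤ ival P v := quad_nonneg hP (castVec v)
    set l := castVec v ⬝ᵥ (P *ᵥ x) with hl
    have e1 : quad P (t • x + castVec v) = t ^ 2 + 2 * (t * l) + ival P v := by
      rw [quad_add hP, mulVec_smul, dotProduct_smul, smul_eq_mul,
        show quad P (t • x) = t ^ 2 * quad P x by simp [quad, mulVec_smul]; ring, hx, mul_one]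
      rfl
    have e2 : quad P (-(t • x) + castVec v) = t ^ 2 - 2 * (t * l) + ival P v := by
      rw [← neg_smul, quad_add hP, mulVec_smul, dotProduct_smul, smul_eq_mul,
        show quad P (-t • x) = t ^ 2 * quad P x by simp [quad, mulVec_neg, mulVec_smul]; ring, hx]
      show t ^ 2 * 1 + 2 * (-t * l) + ival P v = _
      ring
    rw [e1, e2, show Real.exp (-π * (t ^ 2 + 2 * (t * l) + ival P v)) +
        Real.exp (-π * (t ^ 2 - 2 * (t * l) + ival P v)) =
        2 * Real.exp (-π * t ^ 2) * (Real.exp (-π * ival P v) * Real.cosh (2 * π * t * l)) by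
      rw [Real.cosh_eq, show -π * (t ^ 2 + 2 * (t * l) + ival P v) =
          -π * t ^ 2 + -π * ival P v + -(2 * π * t * l) by ring,
        show -π * (t ^ 2 - 2 * (t * l) + ival P v) =
          -π * t ^ 2 + -π * ival P v + 2 * π * t * l by ring]
      simp only [Real.exp_add]
      ring]
    refine mul_le_mul_of_nonneg_left ?_ (by positivity)
    unfold momentTerm
    split_ifs with h
    · have hb : (2 * π * t * l) ^ 2 / 2 ≤ c * ival P v := by
        have := mul_le_mul_of_nonneg_left (sq_dotProduct_mulVec_le hP hx (castVec v)) hc0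
        rw [hl, hc] at *
        exact le_trans (le_of_eq (by ring)) this
      have hcb : 0 ≤ c * ival P v := mul_nonneg hc0 hq
      have h4 : Real.cosh (2 * π * t * l) ≤ 1 + c * ival P v * Real.exp (c * ival P v) := by
        have h5 := exp_sub_one_le (c * ival P v)
        have h6 := (Real.cosh_le_exp_half_sq (2 * π * t * l)).trans (Real.exp_le_exp.2 hb)
        linarith
      refine (mul_le_mul_of_nonneg_left h4 (Real.exp_pos _).le).trans_eq ?_
      rw [show -π * (1 - δ) * ival P v = -π * ival P v + c * ival P v by rw [hc, hδ]; ring,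
        Real.exp_add]
      ring
    · rw [h1 v (not_le.1 h)] at hl
      simp [hl]
  have hup : gsum P (t • x) ≤ Real.exp (-π * t ^ 2) * (gsum P 0 * (1 + 7 / 100 * c)) := by
    have hs := summable_gauss_ival hP
    have h := ((summable_gsum hP (t • x)).add (summable_gsum hP (-(t • x)))).tsum_le_tsum hpair
      ((hs.add (hMs.mul_left c)).mul_left _)
    rw [(summable_gsum hP (t • x)).tsum_add (summable_gsum hP (-(t • x))), tsum_mul_left,
      hs.tsum_add (hMs.mul_left c), tsum_mul_left, ← gsum_zero_eq] at h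
    change gsum P (t • x) + gsum P (-(t • x)) ≤ _ at h
    rw [gsum_neg] at h
    have h6 := mul_le_mul_of_nonneg_left
      (mul_le_mul_of_nonneg_left hM hc0) (Real.exp_pos (-π * t ^ 2)).le
    linarith
  -- the comparison
  have h : 1 - 7 / 100 * c ≤ Real.exp (-π * t ^ 2) * (1 + 7 / 100 * c) :=
    le_of_mul_le_mul_left (by linarith [hlow.trans hup]) (gsum_pos hP 0)
  rw [neg_mul, Real.exp_neg, ← div_eq_inv_mul, le_div_iff₀ (Real.exp_pos _)] at h
  have hc1 : 7 / 100 * c ≤ 1 / 10 := by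
    rw [hc, ht]
    nlinarith
  have h7 := (mul_le_mul_of_nonneg_left (Real.add_one_le_exp (π * t ^ 2)) (by linarith)).trans h
  rw [hc, ht] at h7
  nlinarith

theorem dotProduct_eq_zero_of_mem_span {s : Set (Fin (n + 1) → ℝ)} {y z : Fin (n + 1) → ℝ}
    (h : ∀ a ∈ s, a ⬝ᵥ y = 0) (hz : z ∈ Submodule.span ℝ s) : z ⬝ᵥ y = 0 := by
  induction hz using Submodule.span_induction with
  | mem a ha => exact h a ha
  | zero => exact zero_dotProduct y
  | add a b _ _ ha hb => rw [add_dotProduct, ha, hb, add_zero]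
  | smul r a _ ha => rw [smul_dotProduct, ha, smul_zero]

theorem minVal_mul_le_one {P : Matrix (Fin 1) (Fin 1) ℝ} (hP : P.PosDef) :
    minVal P * minVal P⁻¹ ≤ 1 := by
  have hv : ∀ Q : Matrix (Fin 1) (Fin 1) ℝ, Q.PosDef → minVal Q ≤ Q 0 0 := fun Q hQ =>
    (minVal_le hQ (w := fun _ => 1) (fun h => one_ne_zero (congrFun h 0))).trans_eq
      (by simp [ival, quad, mulVec, dotProduct])
  have hinv : P 0 0 * P⁻¹ 0 0 = 1 := by
    have h := congrFun (congrFun (mul_nonsing_inv P (isUnit_iff_ne_zero.2 hP.det_pos.ne')) 0) 0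
    simpa [Matrix.mul_apply] using h
  exact (mul_le_mul (hv P hP) (hv _ hP.inv) (minVal_pos hP.inv).le
    ((minVal_pos hP).le.trans (hv P hP))).trans_eq hinv

/-- **Banaszczyk's transference theorem.** -/
theorem succMin_mul_le (hP : P.PosDef) (k : Fin (n + 1)) :
    succMin P k * succMin P⁻¹ k.rev ≤ ((n : ℝ) + 1) ^ 2 := by
  rcases Nat.eq_zero_or_pos n with rfl | hn
  · have e : ∀ i : Fin (0 + 1), i = 0 := fun i => Fin.eq_zero i
    rw [e k, e (Fin.rev 0), (succMin_attained hP).2.2.1, (succMin_attained hP.inv).2.2.1]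
    simpa using minVal_mul_le_one hP
  by_contra! hlt
  obtain ⟨u, hu⟩ := exists_minimaFamily hP
  obtain ⟨v, hv⟩ := exists_minimaFamily hP.inv
  obtain ⟨a, ha⟩ : ∃ a, a = succMin P k := ⟨_, rfl⟩
  obtain ⟨b, hb⟩ : ∃ b, b = succMin P⁻¹ k.rev := ⟨_, rfl⟩
  rw [← ha, ← hb] at hlt
  have ha0 : 0 < a := ha ▸ (succMin_attained hP).2.2.2 k
  obtain ⟨c, hc⟩ : ∃ c : ℝ, c = ((n : ℝ) + 1) / a := ⟨_, rfl⟩
  have hc0 : 0 < c := by rw [hc]; positivity
  have hQ := posDef_smul hP hc0
  obtain ⟨Φ, hΦ⟩ : ∃ Φ : (Fin (n + 1) → ℝ) →ₗ[ℝ] Fin k.1 ⊕ Fin k.rev.1 → ℝ, ∀ z i, Φ z i =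
      Sum.elim (fun i => castVec (u (Fin.castLE k.2.le i)) ⬝ᵥ (P *ᵥ z))
        (fun i => castVec (v (Fin.castLE k.rev.2.le i)) ⬝ᵥ z) i :=
    ⟨{ toFun := fun z => Sum.elim (fun i => castVec (u (Fin.castLE k.2.le i)) ⬝ᵥ (P *ᵥ z))
          (fun i => castVec (v (Fin.castLE k.rev.2.le i)) ⬝ᵥ z)
       map_add' := fun z z' => funext fun i => by
        cases i <;> simp [mulVec_add, dotProduct_add]
       map_smul' := fun r z => funext fun i => by
        cases i <;> simp [mulVec_smul, dotProduct_smul] }, fun _ _ => rfl⟩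
  obtain ⟨z, hz, hz0⟩ := (Submodule.ne_bot_iff _).1 (LinearMap.ker_ne_bot_of_finrank_lt (f := Φ) (by
    rw [Module.finrank_fintype_fun_eq_card, Module.finrank_fin_fun, Fintype.card_sum,
      Fintype.card_fin, Fintype.card_fin, Fin.val_rev]
    omega))
  have hzq : 0 < quad (c • P) z := (posDef_iff_quad.1 hQ).2 z hz0
  refine false_of_perp (P := c • P) hQ hn (x := (√(quad (c • P) z))⁻¹ • z) ?_ (fun w hw => ?_)
    fun w hw => ?_
  · have e : ∀ r : ℝ, quad (c • P) (r • z) = r ^ 2 * quad (c • P) z := fun r => by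
      simp [quad, mulVec_smul]; ring
    rw [e, inv_pow, Real.sq_sqrt hzq.le, inv_mul_cancel₀ hzq.ne']
  · have hmem : castVec w ∈ Submodule.span ℝ ((castVec ∘ u) '' {i | i < k}) := by
      by_contra h
      have h1 := hu.2.2 k w h
      rw [← succMin_eq hu, ← ha] at h1
      rw [ival_smul, hc, div_mul_eq_mul_div, div_lt_iff₀ ha0, mul_lt_mul_iff_right₀ (by positivity)]
        at hw
      linarith
    refine dotProduct_eq_zero_of_mem_span ?_ hmem
    rintro _ ⟨i, hi, rfl⟩
    have h1 := congrFun (LinearMap.mem_ker.1 hz) (Sum.inl ⟨i.1, hi⟩)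
    rw [hΦ, Sum.elim_inl] at h1
    simp only [Function.comp_apply, mulVec_smul, smul_mulVec, dotProduct_smul, smul_eq_mul,
      show Fin.castLE k.2.le ⟨i.1, hi⟩ = i from rfl] at h1 ⊢
    simp [h1]
  · have hmem : castVec w ∈ Submodule.span ℝ ((castVec ∘ v) '' {i | i < k.rev}) := by
      by_contra h
      have h1 := hv.2.2 k.rev w h
      rw [← succMin_eq hv, ← hb] at h1
      rw [inv_smul_form hP hc0.ne', ival_smul, inv_mul_lt_iff₀ hc0, hc, div_mul_eq_mul_div,
        lt_div_iff₀ ha0] at hw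
      nlinarith
    refine dotProduct_eq_zero_of_mem_span ?_ hmem
    rintro _ ⟨i, hi, rfl⟩
    have h1 := congrFun (LinearMap.mem_ker.1 hz) (Sum.inr ⟨i.1, hi⟩)
    rw [hΦ, Sum.elim_inr] at h1
    simp only [Function.comp_apply, dotProduct_smul, smul_eq_mul,
      show Fin.castLE k.rev.2.le ⟨i.1, hi⟩ = i from rfl] at h1 ⊢
    simp [h1]

end FA.Banaszczyk

end
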